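import Mathlib
import Fermat.Agent.S17.H.Pairing.Defs
import Fermat.Agent.S17.H.ImmCurve

set_option autoImplicit false
set_option linter.unusedSectionVars false

/-!
# S17, package H, seat PA (GREEN): the local Green functions `g_v(P,Q)` and the pairing `iPair`

* `gloc_symm`, `gloc_self`         : `g_v(P,Q) = g_v(Q,P)`, `g_v(P,P) = 0`
* `finite_gloc_ne_zero`            : `g_v(P,Q) = 0` for almost all `v`
* `glocFinite S : GlocFinite S`
* `gglob S P Q = Σ_v g_v(P,Q)`, `iPair_eq_sum_of_subset`, `iPair_eq_sum`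
* `iPair_symm`, `iPair_add_left`, `iPair_neg_left`, `iPair_sub_left`, and `_right`, `iPair_zero_*`
-/

noncomputable section

open AlgebraicCurve ModularCurve Fermat.Agent.RR

namespace Fermat.Agent.S17.Pairing

/-! ### generalities on sup-norms -/

section sup

variable (𝔸 : AbsSys)

/-- the sup of the absolute values of a finite family of algebraic numbers, not all zero, is `1`
at almost all places -/
theorem finite_sup'_ne_one {ι : Type*} [Fintype ι] [Nonempty ι] (a : ι → Qbar)
    (ha : ∃ i, a i ≠ 0) :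
    {v : 𝔸.ι | Finset.univ.sup' Finset.univ_nonempty (fun i => 𝔸.abv v (a i)) ≠ 1}.Finite := by
  classical
  have hfin : {v : 𝔸.ι | ∃ i, a i ≠ 0 ∧ 𝔸.abv v (a i) ≠ 1}.Finite := by
    have hEq : {v : 𝔸.ι | ∃ i, a i ≠ 0 ∧ 𝔸.abv v (a i) ≠ 1}
        = ⋃ i ∈ (Finset.univ.filter fun i => a i ≠ 0), {v | 𝔸.abv v (a i) ≠ 1} := by
      ext v
      simp
    rw [hEq]
    exact Set.Finite.biUnion (Finset.finite_toSet _)
      (fun i hi => 𝔸.finite_ne_one (a i) (by simpa using hi))
  refine hfin.subset ?_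
  intro v hv
  by_contra hcon
  simp only [Set.mem_ofPred_eq, not_exists, not_and, not_not] at hcon
  apply hv
  apply le_antisymm
  · apply Finset.sup'_le
    intro i _
    by_cases hi : a i = 0
    · rw [hi, map_zero]
      exact zero_le_one
    · exact (hcon i hi).le
  · obtain ⟨i, hi⟩ := ha
    calc (1 : ℝ) = 𝔸.abv v (a i) := (hcon i hi).symm
      _ ≤ _ := Finset.le_sup' (fun i => 𝔸.abv v (a i)) (Finset.mem_univ i)

/-- the sup of the absolute values of a family of zeros is zero -/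
theorem sup'_eq_zero {ι : Type*} [Fintype ι] [Nonempty ι] (a : ι → Qbar) (v : 𝔸.ι)
    (ha : ∀ i, a i = 0) :
    Finset.univ.sup' Finset.univ_nonempty (fun i => 𝔸.abv v (a i)) = 0 := by
  apply le_antisymm
  · apply Finset.sup'_le
    intro i _
    rw [ha i, map_zero]
  · obtain ⟨i⟩ := (inferInstance : Nonempty ι)
    calc (0 : ℝ) ≤ 𝔸.abv v (a i) := (𝔸.abv v).nonneg _
      _ ≤ _ := Finset.le_sup' (fun i => 𝔸.abv v (a i)) (Finset.mem_univ i)

end sup

/-! ### symmetry, diagonal, finiteness -/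

section local_

variable {F : Type*} [Field F] [Algebra Qbar F] (𝔸 : AbsSys) (v : 𝔸.ι)

theorem wnorm_symm {r : ℕ} (x y : Fin (r + 1) → Qbar) : wnorm 𝔸 v x y = wnorm 𝔸 v y x := by
  unfold wnorm
  congr 1
  funext p
  have h : y p.1 * x p.2 - y p.2 * x p.1 = -(x p.1 * y p.2 - x p.2 * y p.1) := by ring
  rw [h, map_neg_eq_map]

theorem wnorm_self {r : ℕ} (x : Fin (r + 1) → Qbar) : wnorm 𝔸 v x x = 0 := by
  unfold wnorm
  exact sup'_eq_zero 𝔸 (fun p : Fin (r + 1) × Fin (r + 1) => x p.1 * x p.2 - x p.2 * x p.1) v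
    (fun p => by ring)

theorem chord_symm {r : ℕ} (φ : Fin (r + 1) → F) (P Q : Place Qbar F) :
    chord 𝔸 v φ P Q = chord 𝔸 v φ Q P := by
  unfold chord
  rw [wnorm_symm, mul_comm]

/-- `g_v(P,Q) = g_v(Q,P)` -/
theorem gloc_symm {r : ℕ} (φ : Fin (r + 1) → F) (P Q : Place Qbar F) :
    gloc 𝔸 v φ P Q = gloc 𝔸 v φ Q P := by
  unfold gloc
  rw [chord_symm]

/-- `g_v(P,P) = 0` (junk value, convenient) -/
theorem gloc_self {r : ℕ} (φ : Fin (r + 1) → F) (P : Place Qbar F) :
    gloc 𝔸 v φ P P = 0 := by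
  unfold gloc chord
  rw [wnorm_self, zero_div, Real.log_zero, neg_zero]

variable {𝔸} in
/-- `g_v(P,Q) = 0` for almost all `v` -/
theorem finite_gloc_ne_zero {P₀ : Place Qbar F} {e r : ℕ} {φ : Fin (r + 1) → F}
    (hφ : IsEmbBasis P₀ e φ) (P Q : Place Qbar F) :
    {v : 𝔸.ι | gloc 𝔸 v φ P Q ≠ 0}.Finite := by
  classical
  by_cases hmin : ∀ p : Fin (r + 1) × Fin (r + 1),
      coord φ P p.1 * coord φ Q p.2 - coord φ P p.2 * coord φ Q p.1 = 0
  · -- all minors vanish: `wnorm = 0`
    have : {v : 𝔸.ι | gloc 𝔸 v φ P Q ≠ 0} = ∅ := by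
      ext v
      simp only [Set.mem_ofPred_eq, ne_eq, Set.mem_empty_iff_false, iff_false, not_not]
      unfold gloc chord wnorm
      rw [sup'_eq_zero 𝔸 _ v hmin, zero_div, Real.log_zero, neg_zero]
    rw [this]
    exact Set.finite_empty
  · rw [not_forall] at hmin
    have h1 := finite_sup'_ne_one 𝔸
      (fun p : Fin (r + 1) × Fin (r + 1) =>
        coord φ P p.1 * coord φ Q p.2 - coord φ P p.2 * coord φ Q p.1) hmin
    have h2 := finite_sup'_ne_one 𝔸 (coord φ P) ⟨pivot φ P, by
      rw [hφ.coord_pivot P]; exact one_ne_zero⟩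
    have h3 := finite_sup'_ne_one 𝔸 (coord φ Q) ⟨pivot φ Q, by
      rw [hφ.coord_pivot Q]; exact one_ne_zero⟩
    refine ((h1.union h2).union h3).subset ?_
    intro v hv
    by_contra hcon
    simp only [Set.mem_union, Set.mem_ofPred_eq, ne_eq, not_or, not_not] at hcon
    obtain ⟨⟨e1, e2⟩, e3⟩ := hcon
    apply hv
    unfold gloc chord wnorm vnorm
    rw [e1, e2, e3]
    simp

end local_

/-! ### the global Green function and the pairing -/

variable {N : ℕ} [NeZero N]

/-- **Seat PA.** -/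
theorem glocFinite (S : HSetup N) : GlocFinite S := fun P Q =>
  finite_gloc_ne_zero S.isEmbBasis P Q

/-- the global Green function `Σ_v g_v(P,Q)` -/
def gglob (S : HSetup N) (P Q : PtN N) : ℝ := ∑ᶠ v : S.𝔸.ι, gloc S.𝔸 v S.φ P Q

theorem gglob_symm (S : HSetup N) (P Q : PtN N) : gglob S P Q = gglob S Q P := by
  unfold gglob
  exact finsum_congr fun v => gloc_symm S.𝔸 v S.φ P Q

theorem gglob_self (S : HSetup N) (P : PtN N) : gglob S P P = 0 := by
  unfold gglob
  rw [finsum_congr fun v => gloc_self S.𝔸 v S.φ P]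
  exact finsum_zero

/-- a finite sum over `v`-finitely supported families commutes with `Σ_v` -/
theorem finsum_sum_weighted (S : HSetup N) (T T' : Finset (PtN N)) (w : PtN N → PtN N → ℝ) :
    ∑ᶠ v : S.𝔸.ι, ∑ P ∈ T, ∑ Q ∈ T', w P Q * gloc S.𝔸 v S.φ P Q
      = ∑ P ∈ T, ∑ Q ∈ T', w P Q * gglob S P Q := by
  have hfin : ∀ P Q, (Function.support fun v : S.𝔸.ι => w P Q * gloc S.𝔸 v S.φ P Q).Finite := by
    intro P Q
    refine (glocFinite S P Q).subset ?_
    intro v hv
    simp only [Function.mem_support, ne_eq, mul_eq_zero, not_or] at hv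
    exact hv.2
  have hfin' : ∀ P, (Function.support fun v : S.𝔸.ι =>
      ∑ Q ∈ T', w P Q * gloc S.𝔸 v S.φ P Q).Finite := by
    intro P
    refine (Set.Finite.biUnion T'.finite_toSet (fun Q _ => hfin P Q)).subset ?_
    intro v hv
    simp only [Function.mem_support, ne_eq] at hv
    obtain ⟨Q, hQ, hne⟩ := Finset.exists_ne_zero_of_sum_ne_zero hv
    simp only [Set.mem_iUnion, Function.mem_support, ne_eq, Finset.mem_coe]
    exact ⟨Q, hQ, hne⟩
  rw [finsum_sum_comm _ _ (fun P _ => hfin' P)]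
  refine Finset.sum_congr rfl fun P _ => ?_
  rw [finsum_sum_comm _ _ (fun Q _ => hfin P Q)]
  refine Finset.sum_congr rfl fun Q _ => ?_
  unfold gglob
  rw [mul_finsum]

/-- `iPair` as a finite sum of global Green functions -/
theorem iPair_eq_sum (S : HSetup N) (D D' : DivN N) :
    iPair S D D' = ∑ P ∈ D.support, ∑ Q ∈ D'.support, (D P : ℝ) * (D' Q : ℝ) * gglob S P Q := by
  unfold iPair
  exact finsum_sum_weighted S D.support D'.support fun P Q => (D P : ℝ) * (D' Q : ℝ)

/-- `iPair` as a finite sum over any finite sets containing the supports -/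
theorem iPair_eq_sum_of_subset (S : HSetup N) (D D' : DivN N) {T T' : Finset (PtN N)}
    (hT : D.support ⊆ T) (hT' : D'.support ⊆ T') :
    iPair S D D' = ∑ P ∈ T, ∑ Q ∈ T', (D P : ℝ) * (D' Q : ℝ) * gglob S P Q := by
  rw [iPair_eq_sum]
  rw [Finset.sum_subset hT]
  · refine Finset.sum_congr rfl fun P _ => ?_
    rw [Finset.sum_subset hT']
    intro Q _ hQ
    rw [Finsupp.notMem_support_iff.mp hQ]
    simp
  · intro P _ hP
    rw [Finsupp.notMem_support_iff.mp hP]
    simp

theorem iPair_symm (S : HSetup N) (D D' : DivN N) : iPair S D D' = iPair S D' D := by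
  rw [iPair_eq_sum, iPair_eq_sum, Finset.sum_comm]
  refine Finset.sum_congr rfl fun Q _ => Finset.sum_congr rfl fun P _ => ?_
  rw [gglob_symm S P Q]
  ring

theorem iPair_add_left (S : HSetup N) (D₁ D₂ D' : DivN N) :
    iPair S (D₁ + D₂) D' = iPair S D₁ D' + iPair S D₂ D' := by
  classical
  have h1 : D₁.support ⊆ D₁.support ∪ D₂.support := Finset.subset_union_left
  have h2 : D₂.support ⊆ D₁.support ∪ D₂.support := Finset.subset_union_right
  have h3 : (D₁ + D₂).support ⊆ D₁.support ∪ D₂.support := Finsupp.support_add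
  rw [iPair_eq_sum_of_subset S (D₁ + D₂) D' h3 (Finset.Subset.refl _),
    iPair_eq_sum_of_subset S D₁ D' h1 (Finset.Subset.refl _),
    iPair_eq_sum_of_subset S D₂ D' h2 (Finset.Subset.refl _), ← Finset.sum_add_distrib]
  refine Finset.sum_congr rfl fun P _ => ?_
  rw [← Finset.sum_add_distrib]
  refine Finset.sum_congr rfl fun Q _ => ?_
  rw [Finsupp.add_apply]
  push_cast
  ring

theorem iPair_neg_left (S : HSetup N) (D D' : DivN N) :
    iPair S (-D) D' = - iPair S D D' := by
  rw [iPair_eq_sum, iPair_eq_sum, Finsupp.support_neg, ← Finset.sum_neg_distrib]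
  refine Finset.sum_congr rfl fun P _ => ?_
  rw [← Finset.sum_neg_distrib]
  refine Finset.sum_congr rfl fun Q _ => ?_
  rw [Finsupp.neg_apply]
  push_cast
  ring

theorem iPair_sub_left (S : HSetup N) (D₁ D₂ D' : DivN N) :
    iPair S (D₁ - D₂) D' = iPair S D₁ D' - iPair S D₂ D' := by
  rw [sub_eq_add_neg, iPair_add_left, iPair_neg_left, sub_eq_add_neg]

theorem iPair_add_right (S : HSetup N) (D D₁ D₂ : DivN N) :
    iPair S D (D₁ + D₂) = iPair S D D₁ + iPair S D D₂ := by
  rw [iPair_symm S D, iPair_add_left, iPair_symm S D₁, iPair_symm S D₂]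

theorem iPair_neg_right (S : HSetup N) (D D' : DivN N) :
    iPair S D (-D') = - iPair S D D' := by
  rw [iPair_symm S D, iPair_neg_left, iPair_symm S D']

theorem iPair_sub_right (S : HSetup N) (D D₁ D₂ : DivN N) :
    iPair S D (D₁ - D₂) = iPair S D D₁ - iPair S D D₂ := by
  rw [iPair_symm S D, iPair_sub_left, iPair_symm S D₁, iPair_symm S D₂]

theorem iPair_zero_left (S : HSetup N) (D' : DivN N) : iPair S 0 D' = 0 := by
  rw [iPair_eq_sum]
  simp

theorem iPair_zero_right (S : HSetup N) (D : DivN N) : iPair S D 0 = 0 := by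
  rw [iPair_symm, iPair_zero_left]

/-- `glin` is the unfiltered version of `gsum` -/
theorem gsum_eq_glin (S : HSetup N) (v : S.𝔸.ι) (P : PtN N) (Z : DivN N) :
    gsum S.𝔸 v S.φ P Z = glin S v P Z := by
  classical
  unfold gsum glin
  rw [Finset.sum_filter]
  refine Finset.sum_congr rfl fun c _ => ?_
  by_cases hc : c = P
  · subst hc
    rw [gloc_self]
    simp
  · rw [if_pos hc]

theorem glin_sub (S : HSetup N) (v : S.𝔸.ι) (P : PtN N) (Z Z' : DivN N) :
    glin S v P (Z - Z') = glin S v P Z - glin S v P Z' := by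
  classical
  unfold glin
  have h1 : Z.support ⊆ Z.support ∪ Z'.support := Finset.subset_union_left
  have h2 : Z'.support ⊆ Z.support ∪ Z'.support := Finset.subset_union_right
  have h3 : (Z - Z').support ⊆ Z.support ∪ Z'.support := Finsupp.support_sub
  have key : ∀ (W : DivN N), W.support ⊆ Z.support ∪ Z'.support →
      ∑ c ∈ W.support, (W c : ℝ) * gloc S.𝔸 v S.φ P c
        = ∑ c ∈ Z.support ∪ Z'.support, (W c : ℝ) * gloc S.𝔸 v S.φ P c := by
    intro W hW
    refine Finset.sum_subset hW ?_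
    intro c _ hc
    rw [Finsupp.notMem_support_iff.mp hc]
    simp
  rw [key _ h3, key _ h1, key _ h2, ← Finset.sum_sub_distrib]
  refine Finset.sum_congr rfl fun c _ => ?_
  rw [Finsupp.sub_apply]
  push_cast
  ring

end Fermat.Agent.S17.Pairing
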