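import Mathlib
import Fermat.Agent.S17.H.Pairing.Green
import Fermat.Agent.S17.H.MoveGlobal

set_option autoImplicit false
set_option linter.unusedSectionVars false

/-!
# S17, package H, seat G4 (PAIR): the height pairing from the principal bound

`pairingThm_of S hPB : PairingThm S` where `hPB : PrincipalBounded S` is seat G2
(`|I(div u, b)| ≤ C₀`).  The pairing is `pair x y = (p x y + p y x) / 2`, `p x y = I(a,b)` for
chosen admissible representatives with disjoint supports (`Move.exists_isRep_disjoint`).
Constant: `C = 10 C₀`.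
-/

noncomputable section

open AlgebraicCurve ModularCurve Fermat.Agent.RR

namespace Fermat.Agent.S17.Pairing

variable {N : ℕ} [NeZero N]

/-! ### sizes and Galois stability -/

theorem dsize_eq_sum_of_subset (D : DivN N) {T : Finset (PtN N)} (hT : D.support ⊆ T) :
    dsize D = ∑ P ∈ T, (D P).natAbs := by
  unfold dsize
  refine Finset.sum_subset hT fun P _ hP => ?_
  rw [Finsupp.notMem_support_iff.mp hP]
  rfl

theorem dsize_add_le (D D' : DivN N) : dsize (D + D') ≤ dsize D + dsize D' := by
  classical
  rw [dsize_eq_sum_of_subset (D + D') (T := D.support ∪ D'.support) Finsupp.support_add,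
    dsize_eq_sum_of_subset D (T := D.support ∪ D'.support) Finset.subset_union_left,
    dsize_eq_sum_of_subset D' (T := D.support ∪ D'.support) Finset.subset_union_right,
    ← Finset.sum_add_distrib]
  refine Finset.sum_le_sum fun P _ => ?_
  rw [Finsupp.add_apply]
  exact Int.natAbs_add_le _ _

theorem dsize_neg (D : DivN N) : dsize (-D) = dsize D := by
  unfold dsize
  rw [Finsupp.support_neg]
  refine Finset.sum_congr rfl fun P _ => ?_
  rw [Finsupp.neg_apply, Int.natAbs_neg]

theorem dsize_sub_le' (D D' : DivN N) : dsize (D - D') ≤ dsize D + dsize D' := by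
  rw [sub_eq_add_neg]
  refine (dsize_add_le _ _).trans ?_
  rw [dsize_neg]

theorem galStable_sub {D D' : DivN N} (h : GalStable N D) (h' : GalStable N D') :
    GalStable N (D - D') := by
  intro σ
  have h1 := h σ
  have h2 := h' σ
  unfold galDiv at h1 h2 ⊢
  rw [smul_sub, h1, h2]

theorem galStable_add {D D' : DivN N} (h : GalStable N D) (h' : GalStable N D') :
    GalStable N (D + D') := by
  intro σ
  have h1 := h σ
  have h2 := h' σ
  unfold galDiv at h1 h2 ⊢
  rw [smul_add, h1, h2]

theorem disjoint_support_sub {D D' b : DivN N} (h : Disjoint D.support b.support)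
    (h' : Disjoint D'.support b.support) : Disjoint (D - D').support b.support := by
  classical
  exact Finset.disjoint_of_subset_left Finsupp.support_sub (Finset.disjoint_union_left.mpr ⟨h, h'⟩)

theorem disjoint_support_add {D D' b : DivN N} (h : Disjoint D.support b.support)
    (h' : Disjoint D'.support b.support) : Disjoint (D + D').support b.support := by
  classical
  exact Finset.disjoint_of_subset_left Finsupp.support_add (Finset.disjoint_union_left.mpr ⟨h, h'⟩)

theorem disjoint_of_forall_eq_zero {a b : DivN N} (h : ∀ P ∈ b.support, a P = 0) :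
    Disjoint a.support b.support := by
  rw [Finset.disjoint_left]
  intro P hPa hPb
  exact (Finsupp.mem_support_iff.mp hPa) (h P hPb)

/-! ### representatives -/

theorem isRep_rep {S : HSetup N} {x : JZero N} {a : DivN N} (ha : IsRep S x a) :
    Move.Rep a x := ⟨ha.mem, ha.mk_eq⟩

theorem isRep_degree_eq {S : HSetup N} {x : JZero N} {a : DivN N} (ha : IsRep S x a) :
    Divisor.degree a = 0 := Divisor.mem_degZero.mp ha.mem

theorem rep_add {x x' : JZero N} {a a' : DivN N} (ha : Move.Rep a x) (ha' : Move.Rep a' x') :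
    Move.Rep (a + a') (x + x') := by
  obtain ⟨h1, e1⟩ := ha
  obtain ⟨h2, e2⟩ := ha'
  refine ⟨add_mem h1 h2, ?_⟩
  rw [← e1, ← e2, ← Pic0.mk_add]
  rfl

/-- two representatives of the same class differ by a principal divisor -/
theorem exists_divOf_sub {x : JZero N} {a a' : DivN N} (ha : Move.Rep a x)
    (ha' : Move.Rep a' x) : ∃ u : FN N, u ≠ 0 ∧ a - a' = divOf (hRR N) u :=
  Move.exists_divOf_of_mem_principal (hRR N) (Move.Rep.sub_mem_principal ha' ha)

/-! ### consequences of the principal bound -/

/-- the principal bound with the constant made explicit -/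
def PrincipalBoundedBy (S : HSetup N) (C₀ : ℝ) : Prop :=
  ∀ (u : FN N) (b : DivN N), u ≠ 0 → GalStable N (divOf (hRR N) u) → GalStable N b →
    Divisor.degree b = 0 → dsize (divOf (hRR N) u) ≤ 12 * S.s → dsize b ≤ 4 * S.s →
    Disjoint (divOf (hRR N) u).support b.support → |iPair S (divOf (hRR N) u) b| ≤ C₀

/-- general form: a Galois-stable divisor `D` of size `≤ 12 s` in the trivial class -/
theorem abs_iPair_le_of_rep_zero {S : HSetup N} {C₀ : ℝ} (hC : PrincipalBoundedBy S C₀)
    {D D' b : DivN N} {x : JZero N} (hD : Move.Rep D x) (hD' : Move.Rep D' x)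
    (hDs : GalStable N D) (hDs' : GalStable N D') (hsize : dsize D + dsize D' ≤ 12 * S.s)
    (hb : GalStable N b) (hb0 : Divisor.degree b = 0) (hbs : dsize b ≤ 4 * S.s)
    (hd : Disjoint D.support b.support) (hd' : Disjoint D'.support b.support) :
    |iPair S D b - iPair S D' b| ≤ C₀ := by
  obtain ⟨u, hu0, hu⟩ := exists_divOf_sub hD hD'
  rw [← iPair_sub_left, hu]
  refine hC u b hu0 ?_ hb hb0 ?_ hbs ?_
  · rw [← hu]
    exact galStable_sub hDs hDs'
  · rw [← hu]
    exact (dsize_sub_le' D D').trans hsize
  · rw [← hu]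
    exact disjoint_support_sub hd hd'

/-- independence of the representative of `x` -/
theorem abs_iPair_sub_le_left {S : HSetup N} {C₀ : ℝ} (hC : PrincipalBoundedBy S C₀)
    {x y : JZero N} {a a' b : DivN N} (ha : IsRep S x a) (ha' : IsRep S x a')
    (hb : IsRep S y b) (hd : Disjoint a.support b.support) (hd' : Disjoint a'.support b.support) :
    |iPair S a b - iPair S a' b| ≤ C₀ := by
  refine abs_iPair_le_of_rep_zero hC (isRep_rep ha) (isRep_rep ha') ha.galStable ha'.galStable ?_ hb.galStable
    (isRep_degree_eq hb) ?_ hd hd'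
  · have h1 := ha.size_le
    have h2 := ha'.size_le
    omega
  · have h1 := hb.size_le
    omega

/-- independence of the representative of `y` -/
theorem abs_iPair_sub_le_right {S : HSetup N} {C₀ : ℝ} (hC : PrincipalBoundedBy S C₀)
    {x y : JZero N} {a b b' : DivN N} (ha : IsRep S x a) (hb : IsRep S y b)
    (hb' : IsRep S y b') (hd : Disjoint a.support b.support) (hd' : Disjoint a.support b'.support) :
    |iPair S a b - iPair S a b'| ≤ C₀ := by
  rw [iPair_symm S a b, iPair_symm S a b']
  exact abs_iPair_sub_le_left hC hb hb' ha hd.symm hd'.symm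

/-- independence of both representatives -/
theorem abs_iPair_sub_le (S : HSetup N) {C₀ : ℝ} (hC : PrincipalBoundedBy S C₀)
    (x y : MW N) {a a' b b' : DivN N} (ha : IsRep S (x : JZero N) a)
    (ha' : IsRep S (x : JZero N) a') (hb : IsRep S (y : JZero N) b)
    (hb' : IsRep S (y : JZero N) b') (hd : Disjoint a.support b.support)
    (hd' : Disjoint a'.support b'.support) :
    |iPair S a b - iPair S a' b'| ≤ 3 * C₀ := by
  classical
  obtain ⟨a'', ha'', hT⟩ := Move.exists_isRep S x (b.support ∪ b'.support)
  have d1 : Disjoint a''.support b.support :=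
    disjoint_of_forall_eq_zero fun P hP => hT P (Finset.mem_union_left _ hP)
  have d2 : Disjoint a''.support b'.support :=
    disjoint_of_forall_eq_zero fun P hP => hT P (Finset.mem_union_right _ hP)
  have e1 := abs_le.mp (abs_iPair_sub_le_left hC ha ha'' hb hd d1)
  have e2 := abs_le.mp (abs_iPair_sub_le_right hC ha'' hb hb' d1 d2)
  have e3 := abs_le.mp (abs_iPair_sub_le_left hC ha'' ha' hb' d2 hd')
  rw [abs_le]
  constructor <;> linarith [e1.1, e1.2, e2.1, e2.2, e3.1, e3.2]

/-- quasi-additivity on representatives -/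
theorem abs_iPair_add_le {S : HSetup N} {C₀ : ℝ} (hC : PrincipalBoundedBy S C₀)
    {x x' y : JZero N} {a a' a'' b : DivN N} (ha : IsRep S x a) (ha' : IsRep S x' a')
    (ha'' : IsRep S (x + x') a'') (hb : IsRep S y b) (hd : Disjoint a.support b.support)
    (hd' : Disjoint a'.support b.support) (hd'' : Disjoint a''.support b.support) :
    |iPair S a'' b - iPair S a b - iPair S a' b| ≤ C₀ := by
  have h := abs_iPair_le_of_rep_zero hC (isRep_rep ha'') (rep_add (isRep_rep ha) (isRep_rep ha')) ha''.galStable
    (galStable_add ha.galStable ha'.galStable) ?_ hb.galStable (isRep_degree_eq hb) ?_ hd''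
    (disjoint_support_add hd hd')
  · rw [iPair_add_left] at h
    rwa [sub_sub]
  · have h1 := ha.size_le
    have h2 := ha'.size_le
    have h3 := ha''.size_le
    have h4 := dsize_add_le a a'
    omega
  · have h1 := hb.size_le
    omega

/-! ### the pairing -/

/-- chosen representatives with disjoint supports -/
def chosenRep (S : HSetup N) (x y : MW N) : DivN N × DivN N :=
  ((Move.exists_isRep_disjoint S x y ∅).choose,
    (Move.exists_isRep_disjoint S x y ∅).choose_spec.choose)

theorem chosenRep_spec (S : HSetup N) (x y : MW N) :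
    IsRep S (x : JZero N) (chosenRep S x y).1 ∧ IsRep S (y : JZero N) (chosenRep S x y).2 ∧
      Disjoint (chosenRep S x y).1.support (chosenRep S x y).2.support := by
  have h := (Move.exists_isRep_disjoint S x y ∅).choose_spec.choose_spec
  exact ⟨h.1, h.2.1, h.2.2.1⟩

/-- the unsymmetrised pairing -/
def prePair (S : HSetup N) (x y : MW N) : ℝ :=
  iPair S (chosenRep S x y).1 (chosenRep S x y).2

/-- the pairing -/
def hpair (S : HSetup N) (x y : MW N) : ℝ := (prePair S x y + prePair S y x) / 2

theorem hpair_symm (S : HSetup N) (x y : MW N) : hpair S x y = hpair S y x := by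
  unfold hpair
  rw [add_comm]

theorem abs_prePair_sub_le (S : HSetup N) {C₀ : ℝ} (hC : PrincipalBoundedBy S C₀)
    (x y : MW N) {a b : DivN N} (ha : IsRep S (x : JZero N) a) (hb : IsRep S (y : JZero N) b)
    (hd : Disjoint a.support b.support) : |prePair S x y - iPair S a b| ≤ 3 * C₀ := by
  obtain ⟨h1, h2, h3⟩ := chosenRep_spec S x y
  exact abs_iPair_sub_le S hC x y h1 ha h2 hb h3 hd

theorem abs_hpair_sub_le (S : HSetup N) {C₀ : ℝ} (hC : PrincipalBoundedBy S C₀)
    (x y : MW N) {a b : DivN N} (ha : IsRep S (x : JZero N) a) (hb : IsRep S (y : JZero N) b)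
    (hd : Disjoint a.support b.support) : |hpair S x y - iPair S a b| ≤ 3 * C₀ := by
  have e1 := abs_le.mp (abs_prePair_sub_le S hC x y ha hb hd)
  have e2 := abs_le.mp (abs_prePair_sub_le S hC y x hb ha hd.symm)
  rw [iPair_symm S b a] at e2
  unfold hpair
  rw [abs_le]
  constructor <;> linarith [e1.1, e1.2, e2.1, e2.2]

theorem principalBoundedBy_nonneg {S : HSetup N} {C₀ : ℝ} (hC : PrincipalBoundedBy S C₀) :
    0 ≤ C₀ := by
  have h1 : divOf (hRR N) (1 : FN N) = 0 := divOf_one (hRR N)
  have hz : GalStable N (0 : DivN N) := by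
    intro σ
    unfold galDiv
    rw [smul_zero]
  have h := hC 1 0 one_ne_zero (by rw [h1]; exact hz) hz (map_zero _)
    (by rw [h1]; simp [dsize]) (by simp [dsize]) (by rw [h1]; simp)
  exact le_trans (abs_nonneg _) h

/-- **Seat G4 (PAIR).** -/
theorem pairingThm_of_boundedBy (S : HSetup N) {C₀ : ℝ} (hC : PrincipalBoundedBy S C₀) :
    PairingThm S := by
  classical
  have hC0 : 0 ≤ C₀ := principalBoundedBy_nonneg hC
  refine ⟨hpair S, 10 * C₀, hpair_symm S, ?_, ?_⟩
  · intro x x' y
    obtain ⟨b, hb, -⟩ := Move.exists_isRep S y ∅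
    obtain ⟨a, ha, haT⟩ := Move.exists_isRep S x b.support
    obtain ⟨a', ha', haT'⟩ := Move.exists_isRep S x' b.support
    obtain ⟨a'', ha'', haT''⟩ := Move.exists_isRep S (x + x') b.support
    have d := disjoint_of_forall_eq_zero haT
    have d' := disjoint_of_forall_eq_zero haT'
    have d'' := disjoint_of_forall_eq_zero haT''
    have e1 := abs_le.mp (abs_hpair_sub_le S hC x y ha hb d)
    have e2 := abs_le.mp (abs_hpair_sub_le S hC x' y ha' hb d')
    have e3 := abs_le.mp (abs_hpair_sub_le S hC (x + x') y ha'' hb d'')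
    have ha''' : IsRep S ((x : JZero N) + (x' : JZero N)) a'' := ha''
    have e4 := abs_le.mp (abs_iPair_add_le hC ha ha' ha''' hb d d' d'')
    rw [abs_le]
    constructor <;> linarith [e1.1, e1.2, e2.1, e2.2, e3.1, e3.2, e4.1, e4.2]
  · intro x y a b ha hb hd
    have := abs_hpair_sub_le S hC x y ha hb hd
    linarith

/-- **Seat GA, assembly**: the pairing theorem from the principal bound (seat G2). -/
theorem pairingThm_of (S : HSetup N) (hPB : PrincipalBounded S) : PairingThm S := by
  obtain ⟨C₀, hC⟩ := hPB
  exact pairingThm_of_boundedBy S hC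

end Fermat.Agent.S17.Pairing
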