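import Mathlib
import Fermat.Agent.S17.H.Pairing.Green
import Fermat.Agent.Lib.RR.Riemann
import Fermat.Agent.Lib.RR.RRI

set_option autoImplicit false
set_option linter.unusedSectionVars false

/-!
# S17, package H, seat G2, sections: a function of bounded size is a quotient of two sections

`exists_sections S u hu hsize : ∃ f₁ f₂ ∈ V₁ \ {0}, f₁ / f₂ = u` for `dsize (div u) ≤ 12 s`
(`V₁ = L(e P₀)`, `e ≥ 20 g + 10`, `s = 3 g + 1`): take `f₂ ≠ 0` in `L(e P₀ - (u)_∞)` (Riemann's
inequality, `deg (u)_∞ = dsize (div u) / 2 ≤ 6 s`) and `f₁ = u f₂`.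
-/

noncomputable section

open AlgebraicCurve ModularCurve Fermat.Agent.RR

namespace Fermat.Agent.S17.Pairing

variable {N : ℕ} [NeZero N]

/-- `2 deg (u)_∞ = Σ_P |ord_P u|` -/
theorem two_mul_degree_poleDiv (u : FN N) :
    2 * Divisor.degree (poleDiv (hRR N) u) = (dsize (divOf (hRR N) u) : ℤ) := by
  classical
  have h := hRR N
  have hsub : (poleDiv h u).support ⊆ (divOf h u).support := by
    intro v hv
    rw [support_poleDiv] at hv
    rw [Finsupp.mem_support_iff, divOf_apply]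
    omega
  have e1 : Divisor.degree (poleDiv h u) = ∑ v ∈ (divOf h u).support, poleDiv h u v := by
    rw [degree_eq_sum h]
    refine Finset.sum_subset hsub fun v _ hv => ?_
    exact Finsupp.notMem_support_iff.mp hv
  have e2 : (0 : ℤ) = ∑ v ∈ (divOf h u).support, divOf h u v := by
    rw [← degree_eq_sum h, degree_divOf]
  unfold dsize
  push_cast
  rw [e1, Finset.mul_sum]
  have e3 : ∑ v ∈ (divOf h u).support, 2 * poleDiv h u v
      = ∑ v ∈ (divOf h u).support, 2 * poleDiv h u v + 0 := (add_zero _).symm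
  rw [e3, e2, ← Finset.sum_add_distrib]
  refine Finset.sum_congr rfl fun v _ => ?_
  rw [poleDiv_apply, divOf_apply]
  rcases le_total 0 (v.ord u) with h0 | h0
  · rw [max_eq_right (by omega), abs_of_nonneg h0]
    ring
  · rw [max_eq_left (by omega), abs_of_nonpos h0]
    ring

/-- **Seat G2, sections.** -/
theorem exists_sections (S : HSetup N) (u : FN N) (hu : u ≠ 0)
    (hsize : dsize (divOf (hRR N) u) ≤ 12 * S.s) :
    ∃ f₁ f₂ : FN N, f₁ ∈ secSpace S.P₀ S.e 1 ∧ f₁ ≠ 0 ∧ f₂ ∈ secSpace S.P₀ S.e 1 ∧ f₂ ≠ 0 ∧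
      f₁ / f₂ = u := by
  classical
  have h := hRR N
  set B : DivN N := Finsupp.single S.P₀ (((1 * S.e : ℕ) : ℤ)) - poleDiv h u with hB
  have hdeg : Divisor.degree B = (S.e : ℤ) - Divisor.degree (poleDiv h u) := by
    rw [hB, map_sub, Divisor.degree_single, h.deg_one]
    push_cast
    ring
  have hpd := two_mul_degree_poleDiv u
  have hs : (dsize (divOf (hRR N) u) : ℤ) ≤ 12 * (3 * (genusFF Qbar (FN N) : ℤ) + 1) := by
    have : (dsize (divOf (hRR N) u) : ℤ) ≤ ((12 * S.s : ℕ) : ℤ) := by exact_mod_cast hsize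
    unfold HSetup.s at this
    push_cast at this
    exact this
  have he : (20 * (genusFF Qbar (FN N) : ℤ) + 10) ≤ (S.e : ℤ) := by exact_mod_cast S.e_large
  have hell : 1 ≤ ell B := by
    have hr := riemann_inequality h B
    have : (1 : ℤ) ≤ (ell B : ℤ) := by
      have hg : (0 : ℤ) ≤ (genusFF Qbar (FN N) : ℤ) := Int.natCast_nonneg _
      linarith
    exact_mod_cast this
  have hne : riemannRochSpace B ≠ ⊥ := by
    intro hbot
    rw [ell_def, hbot, finrank_bot] at hell
    omega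
  obtain ⟨f₂, hf₂B, hf₂0⟩ := Submodule.exists_mem_ne_zero_of_ne_bot hne
  have hB₂ := mem_riemannRochSpace_iff.mp hf₂B
  refine ⟨u * f₂, f₂, ?_, mul_ne_zero hu hf₂0, ?_, hf₂0, ?_⟩
  · unfold secSpace
    rw [mem_riemannRochSpace_iff]
    intro v
    right
    have h1 := (hB₂ v).resolve_left hf₂0
    rw [hB, Finsupp.sub_apply, poleDiv_apply] at h1
    rw [v.ord_mul hu hf₂0]
    have h2 := le_max_left (-(v.ord u)) 0
    omega
  · unfold secSpace
    rw [mem_riemannRochSpace_iff]
    intro v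
    right
    have h1 := (hB₂ v).resolve_left hf₂0
    rw [hB, Finsupp.sub_apply, poleDiv_apply] at h1
    have h2 := le_max_right (-(v.ord u)) 0
    omega
  · field_simp

/-- the divisor of a quotient -/
theorem divOf_div (f₁ f₂ : FN N) (hf₁ : f₁ ≠ 0) (hf₂ : f₂ ≠ 0) :
    divOf (hRR N) (f₁ / f₂) = divOf (hRR N) f₁ - divOf (hRR N) f₂ := by
  rw [div_eq_mul_inv, divOf_mul (hRR N) hf₁ (inv_ne_zero hf₂), divOf_inv, sub_eq_add_neg]

end Fermat.Agent.S17.Pairing
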