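import Mathlib
import Fermat.Agent.S17.H.Pairing.LocalQuot
import Fermat.Agent.S17.H.Pairing.Sections

set_option autoImplicit false
set_option linter.unusedSectionVars false

/-!
# S17, package H, seat G2, global part: the principal bound

`principalBounded_of S b hLD hP : PrincipalBounded S` from the local decomposition theorem at
`j = 1` (`hLD`) and the product formula (`hP : ProdFormula S`, seat G1):
`|I(div u, b)| ≤ 2 · Σ_v γ_v · 4 s`.
-/

noncomputable section

open AlgebraicCurve ModularCurve Fermat.Agent.RR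

namespace Fermat.Agent.S17.Pairing

variable {N : ℕ} [NeZero N]

theorem abs_finsum_le_finsum {ι : Type*} (X Y : ι → ℝ) (hXY : ∀ v, |X v| ≤ Y v)
    (hY : (Function.support Y).Finite) : |∑ᶠ v, X v| ≤ ∑ᶠ v, Y v := by
  have hX : Function.support X ⊆ Function.support Y := by
    intro v hv
    rw [Function.mem_support] at hv ⊢
    intro h0
    apply hv
    have := hXY v
    rw [h0] at this
    exact abs_nonpos_iff.mp this
  rw [finsum_eq_sum_of_support_subset X (s := hY.toFinset) (by simpa using hX),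
    finsum_eq_sum_of_support_subset Y (s := hY.toFinset) (by simp)]
  exact (Finset.abs_sum_le_sum_abs _ _).trans (Finset.sum_le_sum fun v _ => hXY v)

/-- `log |a|_v = 0` for almost all `v` -/
theorem finite_log_abv_ne_zero (𝔸 : AbsSys) (a : Qbar) :
    {v : 𝔸.ι | Real.log (𝔸.abv v a) ≠ 0}.Finite := by
  rcases eq_or_ne a 0 with rfl | ha
  · have : {v : 𝔸.ι | Real.log (𝔸.abv v (0 : Qbar)) ≠ 0} = ∅ := by
      ext v
      simp
    rw [this]
    exact Set.finite_empty
  · refine (𝔸.finite_ne_one a ha).subset ?_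
    intro v hv
    simp only [Set.mem_ofPred_eq, ne_eq] at hv ⊢
    intro h1
    apply hv
    rw [h1, Real.log_one]

/-- the `v`-component of `iPair` in terms of `glin` -/
theorem sum_mul_glin (S : HSetup N) (v : S.𝔸.ι) (b D : DivN N) :
    ∑ Q ∈ b.support, (b Q : ℝ) * glin S v Q D
      = ∑ P ∈ b.support, ∑ Q ∈ D.support, (b P : ℝ) * (D Q : ℝ) * gloc S.𝔸 v S.φ P Q := by
  refine Finset.sum_congr rfl fun P _ => ?_
  unfold glin
  rw [Finset.mul_sum]
  refine Finset.sum_congr rfl fun Q _ => ?_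
  ring

theorem finite_support_sum_glin (S : HSetup N) (b D : DivN N) :
    (Function.support fun v : S.𝔸.ι => ∑ Q ∈ b.support, (b Q : ℝ) * glin S v Q D).Finite := by
  classical
  have hfin : (⋃ P ∈ b.support, ⋃ Q ∈ D.support,
      {v : S.𝔸.ι | gloc S.𝔸 v S.φ P Q ≠ 0}).Finite :=
    Set.Finite.biUnion b.support.finite_toSet fun P _ =>
      Set.Finite.biUnion D.support.finite_toSet fun Q _ => glocFinite S P Q
  refine hfin.subset ?_
  intro v hv
  rw [Function.mem_support, sum_mul_glin] at hv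
  obtain ⟨P, hP, hne⟩ := Finset.exists_ne_zero_of_sum_ne_zero hv
  obtain ⟨Q, hQ, hne'⟩ := Finset.exists_ne_zero_of_sum_ne_zero hne
  simp only [Set.mem_iUnion, Set.mem_ofPred_eq]
  refine ⟨P, hP, Q, hQ, ?_⟩
  intro h0
  apply hne'
  rw [h0, mul_zero]

theorem finite_support_sum_log (S : HSetup N) (b : DivN N) (u : FN N) :
    (Function.support fun v : S.𝔸.ι =>
      ∑ Q ∈ b.support, (b Q : ℝ) * Real.log (S.𝔸.abv v (val Q u))).Finite := by
  classical
  have hfin : (⋃ Q ∈ b.support, {v : S.𝔸.ι | Real.log (S.𝔸.abv v (val Q u)) ≠ 0}).Finite :=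
    Set.Finite.biUnion b.support.finite_toSet fun Q _ => finite_log_abv_ne_zero S.𝔸 _
  refine hfin.subset ?_
  intro v hv
  rw [Function.mem_support] at hv
  obtain ⟨Q, hQ, hne⟩ := Finset.exists_ne_zero_of_sum_ne_zero hv
  simp only [Set.mem_iUnion, Set.mem_ofPred_eq]
  refine ⟨Q, hQ, ?_⟩
  intro h0
  apply hne
  rw [h0, mul_zero]

theorem iPair_eq_finsum_glin (S : HSetup N) (b D : DivN N) :
    iPair S b D = ∑ᶠ v : S.𝔸.ι, ∑ Q ∈ b.support, (b Q : ℝ) * glin S v Q D := by
  unfold iPair
  exact finsum_congr fun v => (sum_mul_glin S v b D).symm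

/-- **the principal bound with explicit constant** -/
theorem abs_iPair_divOf_le (S : HSetup N) {d : ℕ}
    (bas : Module.Basis (Fin (d + 1)) Qbar (secSpace S.P₀ S.e 1)) {γ : MConst S.𝔸}
    (hγ : LocalQuot S bas γ) (hP : ProdFormula S) (u : FN N) (b : DivN N) (hu : u ≠ 0)
    (hstab : GalStable N (divOf (hRR N) u)) (hb : GalStable N b) (hdeg : Divisor.degree b = 0)
    (hsize : dsize (divOf (hRR N) u) ≤ 12 * S.s)
    (hdisj : Disjoint (divOf (hRR N) u).support b.support) :
    |iPair S (divOf (hRR N) u) b| ≤ 2 * γ.total * dsize b := by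
  classical
  have h := hRR N
  obtain ⟨f₁, f₂, hf₁, hf₁0, hf₂, hf₂0, hq⟩ := exists_sections S u hu hsize
  have hD : divOf h u = divOf h f₁ - divOf h f₂ := by
    rw [← hq]
    exact divOf_div f₁ f₂ hf₁0 hf₂0
  -- at the points of `b` the function `u` is a unit
  have hord : ∀ Q ∈ b.support, Q.ord u = 0 := by
    intro Q hQ
    have := Finset.disjoint_right.mp hdisj hQ
    rw [Finsupp.mem_support_iff, not_not, divOf_apply] at this
    exact this
  have hord' : ∀ Q ∈ b.support, Q.ord f₁ = Q.ord f₂ := by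
    intro Q hQ
    have h1 := hord Q hQ
    rw [← hq, div_eq_mul_inv, Q.ord_mul hf₁0 (inv_ne_zero hf₂0), Q.ord_inv] at h1
    omega
  -- the local estimate, summed over the points of `b`
  set κ : S.𝔸.ι → ℝ := fun v =>
    Real.log (cnorm S.𝔸 v bas f₁) - Real.log (cnorm S.𝔸 v bas f₂) with hκ
  set X : S.𝔸.ι → ℝ := fun v => ∑ Q ∈ b.support,
    (b Q : ℝ) * (Real.log (S.𝔸.abv v (val Q u)) + glin S v Q (divOf h u)) with hX
  have hsum0 : ∑ Q ∈ b.support, (b Q : ℝ) = 0 := by
    have := degree_eq_sum h b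
    rw [hdeg] at this
    have h2 : ((∑ Q ∈ b.support, b Q : ℤ) : ℝ) = 0 := by
      rw [← this]
      norm_cast
    push_cast at h2
    exact h2
  have hloc : ∀ v, |X v| ≤ 2 * γ v * dsize b := by
    intro v
    have e1 : X v = ∑ Q ∈ b.support, (b Q : ℝ) *
        (Real.log (S.𝔸.abv v (val Q u)) - κ v + glin S v Q (divOf h u)) := by
      have : ∑ Q ∈ b.support, (b Q : ℝ) *
          (Real.log (S.𝔸.abv v (val Q u)) - κ v + glin S v Q (divOf h u))
          = X v - (∑ Q ∈ b.support, (b Q : ℝ)) * κ v := by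
        rw [hX, Finset.sum_mul, ← Finset.sum_sub_distrib]
        refine Finset.sum_congr rfl fun Q _ => ?_
        ring
      rw [this, hsum0, zero_mul, sub_zero]
    rw [e1]
    refine (Finset.abs_sum_le_sum_abs _ _).trans ?_
    have e2 : (2 * γ v * dsize b : ℝ) = ∑ Q ∈ b.support, |(b Q : ℝ)| * (2 * γ v) := by
      rw [← Finset.sum_mul]
      unfold dsize
      push_cast
      rw [mul_comm]
      congr 1
      refine Finset.sum_congr rfl fun Q _ => ?_
      rw [Nat.cast_natAbs, Int.cast_abs]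
    rw [e2]
    refine Finset.sum_le_sum fun Q hQ => ?_
    rw [abs_mul]
    refine mul_le_mul_of_nonneg_left ?_ (abs_nonneg _)
    have := hγ v f₁ f₂ hf₁ hf₁0 hf₂ hf₂0 Q (hord' Q hQ)
    rw [hq, ← hD] at this
    exact this
  -- sum over `v`
  have hXsplit : ∑ᶠ v, X v = iPair S b (divOf h u) := by
    have e1 : X = fun v => (∑ Q ∈ b.support, (b Q : ℝ) * Real.log (S.𝔸.abv v (val Q u)))
        + ∑ Q ∈ b.support, (b Q : ℝ) * glin S v Q (divOf h u) := by
      funext v
      rw [hX, ← Finset.sum_add_distrib]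
      refine Finset.sum_congr rfl fun Q _ => ?_
      ring
    rw [e1, finsum_add_distrib (finite_support_sum_log S b u)
      (finite_support_sum_glin S b (divOf h u)), hP u b hu hstab hb hdeg hord, zero_add,
      iPair_eq_finsum_glin]
  have hY : (Function.support fun v : S.𝔸.ι => 2 * γ v * (dsize b : ℝ)).Finite := by
    refine γ.finite.subset ?_
    intro v hv
    rw [Function.mem_support] at hv
    simp only [Set.mem_ofPred_eq, ne_eq]
    intro h0
    apply hv
    show 2 * γ.c v * (dsize b : ℝ) = 0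
    rw [h0]
    ring
  have hfinal := abs_finsum_le_finsum X (fun v => 2 * γ v * (dsize b : ℝ)) hloc hY
  rw [hXsplit] at hfinal
  rw [iPair_symm]
  refine hfinal.trans (le_of_eq ?_)
  have : (fun v : S.𝔸.ι => 2 * γ v * (dsize b : ℝ))
      = fun v => (2 * (dsize b : ℝ)) * γ v := by
    funext v
    ring
  rw [this, ← mul_finsum]
  unfold MConst.total
  ring

/-- **Seat G2 (GFUND / PRINCIPAL)**: the principal bound, from the local decomposition theorem
at `j = 1` and the product formula. -/
theorem principalBounded_of (S : HSetup N) {d : ℕ}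
    (bas : Module.Basis (Fin (d + 1)) Qbar (secSpace S.P₀ S.e 1))
    (hLD : LocalDecomp S.𝔸 (hRR N) S.P₀ S.e S.φ 1 bas) (hP : ProdFormula S) :
    PrincipalBounded S := by
  obtain ⟨γ, hγ⟩ := exists_localQuot S bas hLD
  refine ⟨2 * γ.total * (4 * S.s : ℕ), ?_⟩
  intro u b hu hstab hb hdeg hsize hbsize hdisj
  refine (abs_iPair_divOf_le S bas hγ hP u b hu hstab hb hdeg hsize hdisj).trans ?_
  refine mul_le_mul_of_nonneg_left ?_ (mul_nonneg zero_le_two γ.total_nonneg)
  exact_mod_cast hbsize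

end Fermat.Agent.S17.Pairing
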