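import Mathlib
import Fermat.Agent.S17.H.Pairing.LocalQuot

set_option autoImplicit false
set_option linter.unusedSectionVars false

/-!
# S17, package H: the local decomposition theorem for a quotient, with leading coefficients

For `f₁, f₂ ∈ V₁ = L(e P₀)`, nonzero, `u = f₁ / f₂`, ANY place `Q`, `π` a uniformizer at `Q`,
`lcoef Q π u = val_Q (u / π ^ ord_Q u)` the leading coefficient of `u` at `Q`:

`| log |lcoef Q π u|_v - (log ‖f₁‖_v - log ‖f₂‖_v) - ord_Q u · log θ_v(Q;π)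
     + Σ_c (div u)(c) g_v(Q,c) | ≤ 2 γ_v`      (`exists_localQuotLC`).

(The sum over `c` is unfiltered: `g_v(Q,Q) = 0`.)  For `ord_Q u = 0` this is `LocalQuot`.
Used by seat G5 (ADJ).
-/

noncomputable section

open AlgebraicCurve ModularCurve Fermat.Agent.RR

namespace Fermat.Agent.S17.Pairing

variable {N : ℕ} [NeZero N]

/-- the leading coefficient of `u` at `Q` with respect to the uniformizer `π` -/
def lcoef (Q : PtN N) (π u : FN N) : Qbar := val Q (u / π ^ (Q.ord u))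

/-- **the local decomposition theorem for a quotient, with leading coefficients** -/
def LocalQuotLC (S : HSetup N) {d : ℕ}
    (b : Module.Basis (Fin (d + 1)) Qbar (secSpace S.P₀ S.e 1)) (γ : MConst S.𝔸) : Prop :=
  ∀ (v : S.𝔸.ι) (f₁ f₂ : FN N), f₁ ∈ secSpace S.P₀ S.e 1 → f₁ ≠ 0 →
    f₂ ∈ secSpace S.P₀ S.e 1 → f₂ ≠ 0 → ∀ (Q : PtN N) (π : FN N), Q.ord π = 1 →
      |Real.log (S.𝔸.abv v (lcoef Q π (f₁ / f₂)))
        - (Real.log (cnorm S.𝔸 v b f₁) - Real.log (cnorm S.𝔸 v b f₂))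
        - (Q.ord (f₁ / f₂) : ℝ) * Real.log (theta S.𝔸 v S.φ Q π)
        + glin S v Q (divOf (hRR N) f₁ - divOf (hRR N) f₂)| ≤ 2 * γ v

theorem ord_div' (Q : PtN N) {f₁ f₂ : FN N} (hf₁ : f₁ ≠ 0) (hf₂ : f₂ ≠ 0) :
    Q.ord (f₁ / f₂) = Q.ord f₁ - Q.ord f₂ := by
  rw [div_eq_mul_inv, Q.ord_mul hf₁ (inv_ne_zero hf₂), Q.ord_inv]
  ring

/-- quotient of the sizes of the leading terms = size of the leading coefficient of the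
quotient -/
theorem secSize_div_secSize_lc (S : HSetup N) (v : S.𝔸.ι) {f₁ f₂ : FN N} (hf₁ : f₁ ≠ 0)
    (hf₂ : f₂ ≠ 0) (Q : PtN N) {π : FN N} (hπ : Q.ord π = 1) (m₁ m₂ : ℕ)
    (hm₁ : (m₁ : ℤ) = zdiv (hRR N) S.P₀ S.e 1 f₁ Q)
    (hm₂ : (m₂ : ℤ) = zdiv (hRR N) S.P₀ S.e 1 f₂ Q) :
    secSize S.𝔸 v S.φ 1 Q π m₁ f₁ / secSize S.𝔸 v S.φ 1 Q π m₂ f₂
      = S.𝔸.abv v (lcoef Q π (f₁ / f₂)) := by
  have he := e_ge_two_genus S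
  have hπ0 : π ≠ 0 := by
    rintro rfl
    rw [Q.ord_zero] at hπ
    exact zero_ne_one hπ
  have hp0 : S.φ (pivot S.φ Q) ≠ 0 := S.isEmbBasis.ne_zero _
  have o1 := S.isEmbBasis.ord_lead (hRR N) he 1 Q hπ hf₁ m₁ hm₁
  have o2 := S.isEmbBasis.ord_lead (hRR N) he 1 Q hπ hf₂ m₂ hm₂
  have hn := pow_pos (S.isEmbBasis.vnorm_coord_pos S.𝔸 v Q) 1
  have hord : Q.ord (f₁ / f₂) = (m₁ : ℤ) - (m₂ : ℤ) := by
    rw [ord_div' Q hf₁ hf₂, hm₁, hm₂, zdiv_apply, zdiv_apply]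
    ring
  have hquot : f₁ / f₂ / π ^ (Q.ord (f₁ / f₂)) = (f₁ / (S.φ (pivot S.φ Q) ^ 1 * π ^ m₁))
      / (f₂ / (S.φ (pivot S.φ Q) ^ 1 * π ^ m₂)) := by
    rw [hord, zpow_sub₀ hπ0, zpow_natCast, zpow_natCast]
    field_simp
  unfold secSize lcoef
  rw [div_div_div_cancel_right₀ hn.ne', hquot]
  unfold val
  rw [Pts.ev_div (hRR N) Q o1.ge o2, map_div₀]

/-- **the local decomposition theorem for a quotient, with leading coefficients**, from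
`LocalDecomp` at `j = 1` -/
theorem exists_localQuotLC (S : HSetup N) {d : ℕ}
    (b : Module.Basis (Fin (d + 1)) Qbar (secSpace S.P₀ S.e 1))
    (hLD : LocalDecomp S.𝔸 (hRR N) S.P₀ S.e S.φ 1 b) : ∃ γ : MConst S.𝔸, LocalQuotLC S b γ := by
  obtain ⟨γ, hγ⟩ := hLD
  refine ⟨γ, ?_⟩
  intro v f₁ f₂ hf₁ hf₁0 hf₂ hf₂0 Q π hπ
  have he := e_ge_two_genus S
  obtain ⟨m₁, hm₁'⟩ := Int.eq_ofNat_of_zero_le (zdiv_nonneg (hRR N) S.P₀ S.e 1 hf₁ hf₁0 Q)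
  obtain ⟨m₂, hm₂'⟩ := Int.eq_ofNat_of_zero_le (zdiv_nonneg (hRR N) S.P₀ S.e 1 hf₂ hf₂0 Q)
  have hm₁ : (m₁ : ℤ) = zdiv (hRR N) S.P₀ S.e 1 f₁ Q := hm₁'.symm
  have hm₂ : (m₂ : ℤ) = zdiv (hRR N) S.P₀ S.e 1 f₂ Q := hm₂'.symm
  have h1 := abs_le.mp (hγ v f₁ hf₁ hf₁0 Q π hπ m₁ hm₁)
  have h2 := abs_le.mp (hγ v f₂ hf₂ hf₂0 Q π hπ m₂ hm₂)
  have p1 := S.isEmbBasis.secSize_pos (hRR N) he S.𝔸 v 1 Q hπ hf₁0 m₁ hm₁
  have p2 := S.isEmbBasis.secSize_pos (hRR N) he S.𝔸 v 1 Q hπ hf₂0 m₂ hm₂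
  have hlog : Real.log (S.𝔸.abv v (lcoef Q π (f₁ / f₂)))
      = Real.log (secSize S.𝔸 v S.φ 1 Q π m₁ f₁) - Real.log (secSize S.𝔸 v S.φ 1 Q π m₂ f₂) := by
    rw [← secSize_div_secSize_lc S v hf₁0 hf₂0 Q hπ m₁ m₂ hm₁ hm₂, Real.log_div p1.ne' p2.ne']
  have hg : glin S v Q (divOf (hRR N) f₁ - divOf (hRR N) f₂)
      = gsum S.𝔸 v S.φ Q (zdiv (hRR N) S.P₀ S.e 1 f₁)
        - gsum S.𝔸 v S.φ Q (zdiv (hRR N) S.P₀ S.e 1 f₂) := by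
    rw [gsum_eq_glin, gsum_eq_glin, ← glin_sub]
    congr 1
    unfold zdiv
    abel
  have hord : (Q.ord (f₁ / f₂) : ℝ) = (m₁ : ℝ) - (m₂ : ℝ) := by
    have : Q.ord (f₁ / f₂) = (m₁ : ℤ) - (m₂ : ℤ) := by
      rw [ord_div' Q hf₁0 hf₂0, hm₁, hm₂, zdiv_apply, zdiv_apply]
      ring
    rw [this]
    push_cast
    ring
  rw [hlog, hg, hord, abs_le]
  constructor <;> nlinarith [h1.1, h1.2, h2.1, h2.2]

end Fermat.Agent.S17.Pairing
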