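import Mathlib
import Fermat.Agent.S17.H.Pairing.Main
import Fermat.Agent.S17.H.Pairing.PrincipalAsm
import Fermat.Agent.S17.H.Pairing.ProdLC

set_option autoImplicit false
set_option linter.unusedSectionVars false

/-!
# S17, package H, seat GA: the pairing theorem from the local decomposition theorem

* `pairingThm_of_localDecomp S bas hLD hP : PairingThm S`, where
  `hLD : LocalDecomp S.𝔸 (hRR N) S.P₀ S.e S.φ 1 bas` (seats L6 + L7 at `j = 1`, any basis `bas`
  of `V₁ = L(e P₀)`) and `hP : ProdFormula S` (seat G1);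
* `localDecomp_of_ge_le` : `LocalDecompGe` + `LocalDecompLe` ⟹ `LocalDecomp`;
* `pairingThm S bas hLD : PairingThm S`  (G1 = `prodFormula'`, `Pairing/ProdLC.lean`);
* `pairingThm_of_ge_le S bas hGe hLe : PairingThm S`.
-/

noncomputable section

open AlgebraicCurve ModularCurve Fermat.Agent.RR

namespace Fermat.Agent.S17.Pairing

variable {N : ℕ} [NeZero N]

/-- **Seat GA**, with the product formula as a hypothesis. -/
theorem pairingThm_of_localDecomp (S : HSetup N) {d : ℕ}
    (bas : Module.Basis (Fin (d + 1)) Qbar (secSpace S.P₀ S.e 1))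
    (hLD : LocalDecomp S.𝔸 (hRR N) S.P₀ S.e S.φ 1 bas) (hP : ProdFormula S) :
    PairingThm S :=
  pairingThm_of S (principalBounded_of S bas hLD hP)

/-- the two halves of the local decomposition theorem give the theorem -/
theorem localDecomp_of_ge_le {F : Type*} [Field F] [Algebra Qbar F] (𝔸 : AbsSys)
    (h : IsRRField Qbar F) (P₀ : Place Qbar F) (e : ℕ) {r : ℕ} (φ : Fin (r + 1) → F) (j : ℕ)
    {d : ℕ} (b : Module.Basis (Fin (d + 1)) Qbar (secSpace P₀ e j))
    (hGe : LocalDecompGe 𝔸 h P₀ e φ j b) (hLe : LocalDecompLe 𝔸 h P₀ e φ j b) :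
    LocalDecomp 𝔸 h P₀ e φ j b := by
  obtain ⟨γ₁, h₁⟩ := hGe
  obtain ⟨γ₂, h₂⟩ := hLe
  refine ⟨γ₁ + γ₂, ?_⟩
  intro v f hf hf0 P π hπ m hm
  have e1 := h₁ v f hf hf0 P π hπ m hm
  have e2 := h₂ v f hf hf0 P π hπ m hm
  have n1 := γ₁.nonneg v
  have n2 := γ₂.nonneg v
  rw [MConst.add_apply, abs_le]
  constructor <;> linarith

/-- **Seat GA: the height pairing**, from the local decomposition theorem at `j = 1`. -/
theorem pairingThm (S : HSetup N) {d : ℕ}
    (bas : Module.Basis (Fin (d + 1)) Qbar (secSpace S.P₀ S.e 1))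
    (hLD : LocalDecomp S.𝔸 (hRR N) S.P₀ S.e S.φ 1 bas) : PairingThm S :=
  pairingThm_of_localDecomp S bas hLD (prodFormula' S)

/-- **Seat GA: the height pairing**, from the two halves (seats L6, L7) at `j = 1`. -/
theorem pairingThm_of_ge_le (S : HSetup N) {d : ℕ}
    (bas : Module.Basis (Fin (d + 1)) Qbar (secSpace S.P₀ S.e 1))
    (hGe : LocalDecompGe S.𝔸 (hRR N) S.P₀ S.e S.φ 1 bas)
    (hLe : LocalDecompLe S.𝔸 (hRR N) S.P₀ S.e S.φ 1 bas) : PairingThm S :=
  pairingThm S bas (localDecomp_of_ge_le S.𝔸 (hRR N) S.P₀ S.e S.φ 1 bas hGe hLe)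

end Fermat.Agent.S17.Pairing
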