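import Mathlib
import Fermat.Agent.S17.H.MoveGlobal
import Fermat.Agent.S17.H.Pairing.Defs

set_option autoImplicit false

/-!
# S17, package H, seat PE (MOVEREP): admissible representatives avoiding a finite set

`moveRep S : MoveRep S` — every rational class `x ∈ MW N` has an admissible representative
(`IsRep S x a`: Galois-stable, degree `0`, `dsize a ≤ 2 s`, class `x`) whose support avoids any
given finite set of points.  This is `Move.exists_isRep` (file `S17/H/MoveGlobal.lean`: the moving
lemma `Move.exists_moving_MW` wired with the Galois-fixed auxiliary function of package RAT,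
`RatDesc.exists_fixed_notMem'`).

Also the two-representative forms used by the pairing (`moveRep_disjoint`,
`moveRep_disjoint_from`).
-/

noncomputable section

open AlgebraicCurve ModularCurve Fermat.Agent.RR

namespace Fermat.Agent.S17.Pairing

variable {N : ℕ} [NeZero N]

/-- **Seat PE (MOVEREP).**  Admissible representatives avoiding a finite set exist. -/
theorem moveRep (S : HSetup N) : MoveRep S :=
  fun x T => Move.exists_isRep S x T

/-- two admissible representatives with disjoint supports, both avoiding a finite set. -/
theorem moveRep_disjoint (S : HSetup N) (x y : MW N) (T : Finset (PtN N)) :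
    ∃ a b : DivN N, IsRep S (x : JZero N) a ∧ IsRep S (y : JZero N) b ∧
      Disjoint a.support b.support ∧ (∀ P ∈ T, a P = 0) ∧ (∀ P ∈ T, b P = 0) :=
  Move.exists_isRep_disjoint S x y T

/-- an admissible representative of `y` with support disjoint from a given divisor and avoiding
a finite set. -/
theorem moveRep_disjoint_from (S : HSetup N) (y : MW N) (a : DivN N) (T : Finset (PtN N)) :
    ∃ b : DivN N, IsRep S (y : JZero N) b ∧ Disjoint a.support b.support ∧
      ∀ P ∈ T, b P = 0 :=
  Move.exists_isRep_disjoint_from S y a T

end Fermat.Agent.S17.Pairing
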